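/-
S56 / block (E), leaf LEC-1 (helper25): THE LOCAL EULER CHARACTERISTIC IS ADDITIVE.

Setting: a level structure `𝒰` on a group `G` (the local Galois group `G_p` with `localLevel`), a
character `χ`, an invariant map `t : H²(G, k(χ)) → k` with one-sided local duality
(`LocalDuality.MonoDuality 𝒰 χ t`) and finiteness of `H¹` (`LocalDuality.FiniteH1 𝒰`).

* `lmap_two_surjective_of_monoDuality` : **`H²(G, ·)` is right exact** on finite dimensional
  discrete representations (`H²(X) ≅ H⁰(X')^*` naturally in `X`, and `H⁰` is left exact);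
* `euler_additive_of_monoDuality` : `h⁰ − h¹ + h²` is additive on short exact sequences (in `ℕ`);
* `eulerL 𝒰 Y : ℤ := h⁰(Y) − h¹(Y) + h²(Y) + dim Y` (the local Euler characteristic DEFECT: the
  local Euler characteristic formula at `p` says `eulerL = 0`); **`eulerL_add`**, **`eulerL_iso`**;
* `fQuotL 𝒰 hU : Rep k (G ⧸ U) → ℤ` (`eulerL` of the inflation), `fQuotL_add`, `fQuotL_iso`,
  `eulerL_eq_fQuotL` — the shape consumed by the induction theorem (D2);
* instances: `eulerL_add_localData` (the local groups of `localData S`), and for the local group at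
  an arbitrary prime `q`: `exists_monoDuality_local`, `eulerL_add_local`, `fQuotL_add_local`.
-/
import Mathlib
import Fermat.Agent.S56.PT.EulerAdd
import Fermat.Agent.S56.GEC.Additive

set_option autoImplicit false
set_option linter.unusedSectionVars false

namespace Fermat.Agent.S56.Loc.EulerP.Additive

open CategoryTheory groupCohomology Rep Module Fermat.Agent.S55.Level Fermat.Agent.S55.Cone
  Fermat.Agent.S55.DualTwist Fermat.Agent.S55.LevelDuality
  Fermat.Agent.S56.PT.LocalDuality Fermat.Agent.S56.PT.EulerAdd Fermat.Agent.S56.GEC.Additive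

universe u

variable {k G : Type u} [Field k] [Group G] {𝒰 : LevelStructure G} {χ : G →* kˣ}
  [IsDiscrete 𝒰 (ofChar χ)] {t : levelCohomology 𝒰 (ofChar χ) 2 →ₗ[k] k}

/-! ### `H²` is right exact -/

section RightExact

open ShortComplex

variable {S : ShortComplex (Rep.{u} k G)} [IsDiscrete 𝒰 S.X₁] [IsDiscrete 𝒰 S.X₂]
  [IsDiscrete 𝒰 S.X₃] [FiniteDimensional k S.X₁] [FiniteDimensional k S.X₂]
  [FiniteDimensional k S.X₃]

/-- **`H²(G, X₂) → H²(G, X₃)` is surjective** for a short exact sequence `0 → X₁ → X₂ → X₃ → 0` of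
finite dimensional discrete representations of a group with (one-sided) local duality. -/
theorem lmap_two_surjective_of_monoDuality (hΨ : MonoDuality 𝒰 χ t)
    (hfin : FiniteH1 (k := k) 𝒰) (hS : S.ShortExact) :
    Function.Surjective (lmap 𝒰 S.g 2) := by
  have hd2 : IsDiscrete 𝒰 (S.X₂.dualTwist χ) := isDiscrete_dualTwist 𝒰 χ _
  have hd3 : IsDiscrete 𝒰 (S.X₃.dualTwist χ) := isDiscrete_dualTwist 𝒰 χ _
  have hf2' : FiniteDimensional k (S.X₂.dualTwist χ) :=
    inferInstanceAs (FiniteDimensional k (Module.Dual k S.X₂))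
  have hf3' : FiniteDimensional k (S.X₃.dualTwist χ) :=
    inferInstanceAs (FiniteDimensional k (Module.Dual k S.X₃))
  have hΨ2 := (Ψ_bijective hΨ S.X₂ hfin).2.2
  have hΨ3 := (Ψ_bijective hΨ S.X₃ hfin).2.2
  have h02' := finiteDimensional_levelCohomology_zero 𝒰 (S.X₂.dualTwist χ)
  have h03' := finiteDimensional_levelCohomology_zero 𝒰 (S.X₃.dualTwist χ)
  have h23 := finiteDimensional_two hΨ S.X₃
  -- `H⁰(X₃') → H⁰(X₂')` is injective
  have hg' : Function.Injective (dualTwistMap χ S.g).hom :=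
    (Rep.mono_iff_injective _).1 (dualSeq_shortExact χ hS).mono_f
  have hinj : Function.Injective (lmap 𝒰 (dualTwistMap χ S.g) 0) :=
    homologyMap_levelMap_zero_injective 𝒰 _ hg'
  rw [← LinearMap.dualMap_injective_iff, injective_iff_map_eq_zero]
  intro e he
  -- every functional on `H²(X₃)` is `y ↦ Ψ y w`
  set E := LinearEquiv.ofBijective (Ψ 𝒰 χ t S.X₃ 0 2 rfl) hΨ3 with hE
  set w := (Module.evalEquiv k (levelCohomology 𝒰 (S.X₃.dualTwist χ) 0)).symm
    (e ∘ₗ E.symm.toLinearMap) with hwdef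
  have hw : ∀ y, e y = Ψ 𝒰 χ t S.X₃ 0 2 rfl y w := by
    intro y
    rw [hwdef, Module.apply_evalEquiv_symm_apply]
    show e y = e (E.symm (Ψ 𝒰 χ t S.X₃ 0 2 rfl y))
    have : Ψ 𝒰 χ t S.X₃ 0 2 rfl y = E y := rfl
    rw [this, LinearEquiv.symm_apply_apply]
  have hw0 : lmap 𝒰 (dualTwistMap χ S.g) 0 w = 0 := by
    rw [← Module.forall_dual_apply_eq_zero_iff k]
    intro φ
    obtain ⟨y, rfl⟩ := hΨ2.2 φ
    rw [← Ψ_natural, ← hw]
    exact LinearMap.congr_fun he y
  have hw' : w = 0 := hinj (hw0.trans (map_zero _).symm)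
  refine LinearMap.ext fun y => ?_
  rw [hw, hw', map_zero]
  rfl

/-- **Additivity of `h⁰ − h¹ + h²`** on short exact sequences of finite dimensional discrete
representations of a group with local duality. -/
theorem euler_additive_of_monoDuality (hΨ : MonoDuality 𝒰 χ t) (hfin : FiniteH1 (k := k) 𝒰)
    (hS : S.ShortExact) :
    finrank k (levelCohomology 𝒰 S.X₂ 0) + finrank k (levelCohomology 𝒰 S.X₂ 2) +
        finrank k (levelCohomology 𝒰 S.X₁ 1) + finrank k (levelCohomology 𝒰 S.X₃ 1) =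
      finrank k (levelCohomology 𝒰 S.X₁ 0) + finrank k (levelCohomology 𝒰 S.X₁ 2) +
        finrank k (levelCohomology 𝒰 S.X₃ 0) + finrank k (levelCohomology 𝒰 S.X₃ 2) +
        finrank k (levelCohomology 𝒰 S.X₂ 1) := by
  have h01 := finiteDimensional_levelCohomology_zero 𝒰 S.X₁
  have h02 := finiteDimensional_levelCohomology_zero 𝒰 S.X₂
  have h03 := finiteDimensional_levelCohomology_zero 𝒰 S.X₃
  have h11 := hfin S.X₁
  have h12 := hfin S.X₂
  have h13 := hfin S.X₃
  have h21 := finiteDimensional_two hΨ S.X₁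
  have h22 := finiteDimensional_two hΨ S.X₂
  have h23 := finiteDimensional_two hΨ S.X₃
  have hf : Function.Injective S.f.hom := (Rep.mono_iff_injective S.f).1 hS.mono_f
  have key := finrank_nine (lmap 𝒰 S.f 0) (lmap 𝒰 S.g 0) (levelδ 𝒰 hS 0 1 rfl).hom
    (lmap 𝒰 S.f 1) (lmap 𝒰 S.g 1) (levelδ 𝒰 hS 1 2 rfl).hom (lmap 𝒰 S.f 2) (lmap 𝒰 S.g 2)
    (homologyMap_levelMap_zero_injective 𝒰 S.f hf)
    ((ShortComplex.moduleCat_exact_iff_range_eq_ker _).1 (level_exact₂ 𝒰 hS 0))
    ((ShortComplex.moduleCat_exact_iff_range_eq_ker _).1 (level_exact₃ 𝒰 hS 0 1 rfl))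
    ((ShortComplex.moduleCat_exact_iff_range_eq_ker _).1 (level_exact₁ 𝒰 hS 0 1 rfl))
    ((ShortComplex.moduleCat_exact_iff_range_eq_ker _).1 (level_exact₂ 𝒰 hS 1))
    ((ShortComplex.moduleCat_exact_iff_range_eq_ker _).1 (level_exact₃ 𝒰 hS 1 2 rfl))
    ((ShortComplex.moduleCat_exact_iff_range_eq_ker _).1 (level_exact₁ 𝒰 hS 1 2 rfl))
    ((ShortComplex.moduleCat_exact_iff_range_eq_ker _).1 (level_exact₂ 𝒰 hS 2))
    (lmap_two_surjective_of_monoDuality hΨ hfin hS)
  omega

end RightExact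

/-! ### The local Euler characteristic defect `eulerL = h⁰ − h¹ + h² + dim` -/

section EulerL

/-- Dimensions are additive on short exact sequences of representations. -/
theorem finrank_add_of_shortExact {X : ShortComplex (Rep.{u} k G)} (hX : X.ShortExact)
    [FiniteDimensional k X.X₂] :
    finrank k X.X₂ = finrank k X.X₁ + finrank k X.X₃ := by
  have hf : Function.Injective X.f.hom := (Rep.mono_iff_injective X.f).1 hX.mono_f
  have hg : Function.Surjective X.g.hom := (Rep.epi_iff_surjective X.g).1 hX.epi_g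
  have hex : LinearMap.range X.f.hom.toLinearMap = LinearMap.ker X.g.hom.toLinearMap :=
    (hX.exact.map (forget₂ (Rep k G) (ModuleCat k))).moduleCat_range_eq_ker
  have h1 := LinearMap.finrank_range_add_finrank_ker X.g.hom.toLinearMap
  have h2 : finrank k (LinearMap.range X.g.hom.toLinearMap) = finrank k X.X₃ := by
    rw [LinearMap.range_eq_top.2 hg, finrank_top]
  have h3 : finrank k (LinearMap.ker X.g.hom.toLinearMap) = finrank k X.X₁ := by
    rw [← hex]
    exact LinearMap.finrank_range_of_inj hf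
  omega

variable (𝒰)

/-- `eulerL(Y) = h⁰(G, Y) − h¹(G, Y) + h²(G, Y) + dim Y`: the defect in the local Euler
characteristic formula at `p` (which says `eulerL = 0` for `G = G_p`). -/
noncomputable def eulerL (Y : Rep.{u} k G) [IsDiscrete 𝒰 Y] : ℤ :=
  (finrank k (levelCohomology 𝒰 Y 0) : ℤ) - finrank k (levelCohomology 𝒰 Y 1) +
    finrank k (levelCohomology 𝒰 Y 2) + finrank k Y

/-- `eulerL` is isomorphism invariant. -/
theorem eulerL_iso {Y Z : Rep.{u} k G} [IsDiscrete 𝒰 Y] [IsDiscrete 𝒰 Z] (e : Y ≅ Z) :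
    eulerL 𝒰 Y = eulerL 𝒰 Z := by
  have h (n : ℕ) : finrank k (levelCohomology 𝒰 Y n) = finrank k (levelCohomology 𝒰 Z n) :=
    LinearEquiv.finrank_eq (LinearEquiv.ofBijective _ (lmap_bijective_of_iso 𝒰 e n))
  have hdim : finrank k Y = finrank k Z :=
    LinearEquiv.finrank_eq (LinearEquiv.ofBijective e.hom.hom.toLinearMap
      ⟨(Rep.mono_iff_injective e.hom).1 inferInstance,
        (Rep.epi_iff_surjective e.hom).1 inferInstance⟩)
  unfold eulerL
  rw [h 0, h 1, h 2, hdim]

variable {𝒰}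

open ShortComplex in
/-- **LEC-1: `eulerL` is additive on short exact sequences.** -/
theorem eulerL_add (hΨ : MonoDuality 𝒰 χ t) (hfin : FiniteH1 (k := k) 𝒰)
    {X : ShortComplex (Rep.{u} k G)} [IsDiscrete 𝒰 X.X₁] [IsDiscrete 𝒰 X.X₂] [IsDiscrete 𝒰 X.X₃]
    [FiniteDimensional k X.X₁] [FiniteDimensional k X.X₂] [FiniteDimensional k X.X₃]
    (hX : X.ShortExact) :
    eulerL 𝒰 X.X₂ = eulerL 𝒰 X.X₁ + eulerL 𝒰 X.X₃ := by
  have e1 := euler_additive_of_monoDuality hΨ hfin hX
  have e2 := finrank_add_of_shortExact hX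
  unfold eulerL
  omega

end EulerL

/-! ### The finite quotients -/

section Quot

variable {U : Subgroup G} [U.Normal] (𝒰) (hU : U ∈ 𝒰.sets)

/-- `eulerL` on the representations of the finite quotient `G ⧸ U`. -/
noncomputable def fQuotL (N : Rep.{u} k (G ⧸ U)) : ℤ :=
  haveI := isDiscrete_infl hU N
  eulerL 𝒰 (infl U N)

/-- `fQuotL` is isomorphism invariant. -/
theorem fQuotL_iso {N N' : Rep.{u} k (G ⧸ U)} (e : N ≅ N') :
    fQuotL 𝒰 hU N = fQuotL 𝒰 hU N' := by
  have := isDiscrete_infl hU N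
  have := isDiscrete_infl hU N'
  exact eulerL_iso 𝒰 ((Rep.resFunctor (QuotientGroup.mk' U)).mapIso e)

variable {𝒰}

open ShortComplex in
/-- **`fQuotL` is additive on short exact sequences** of representations of `G ⧸ U`. -/
theorem fQuotL_add (hΨ : MonoDuality 𝒰 χ t) (hfin : FiniteH1 (k := k) 𝒰)
    {X : ShortComplex (Rep.{u} k (G ⧸ U))}
    [FiniteDimensional k X.X₁] [FiniteDimensional k X.X₂] [FiniteDimensional k X.X₃]
    (hX : X.ShortExact) :
    fQuotL 𝒰 hU X.X₂ = fQuotL 𝒰 hU X.X₁ + fQuotL 𝒰 hU X.X₃ := by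
  have : IsDiscrete 𝒰 (X.map (Rep.resFunctor (QuotientGroup.mk' U))).X₁ := isDiscrete_infl hU X.X₁
  have : IsDiscrete 𝒰 (X.map (Rep.resFunctor (QuotientGroup.mk' U))).X₂ := isDiscrete_infl hU X.X₂
  have : IsDiscrete 𝒰 (X.map (Rep.resFunctor (QuotientGroup.mk' U))).X₃ := isDiscrete_infl hU X.X₃
  have : FiniteDimensional k (X.map (Rep.resFunctor (QuotientGroup.mk' U))).X₁ :=
    ‹FiniteDimensional k X.X₁›
  have : FiniteDimensional k (X.map (Rep.resFunctor (QuotientGroup.mk' U))).X₂ :=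
    ‹FiniteDimensional k X.X₂›
  have : FiniteDimensional k (X.map (Rep.resFunctor (QuotientGroup.mk' U))).X₃ :=
    ‹FiniteDimensional k X.X₃›
  exact eulerL_add hΨ hfin (X := X.map (Rep.resFunctor (QuotientGroup.mk' U)))
    ((Rep.shortExact_res (QuotientGroup.mk' U)).2 hX)

variable (𝒰)

/-- The value of `eulerL` on a representation on which `U` acts trivially. -/
theorem eulerL_eq_fQuotL (Y : Rep.{u} k G) [IsDiscrete 𝒰 Y]
    (hY : ∀ u ∈ U, Y.ρ u = 1) : eulerL 𝒰 Y = fQuotL 𝒰 hU (deflate U Y hY) := by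
  have := isDiscrete_infl hU (deflate U Y hY)
  exact (eulerL_iso 𝒰 (inflDeflateIso U Y hY)).symm

end Quot

/-! ### The instances: the local Galois groups -/

section Local

open ShortComplex ExtCitation Fermat.Agent.S55.Assembly Fermat.Agent.S56.PT.Instance

local notation "Γ" => (AlgebraicClosure ℚ ≃ₐ[ℚ] AlgebraicClosure ℚ)

variable {p : ℕ} [Fact p.Prime]

/-- **Local duality and finiteness at an arbitrary prime `q`** (`p` odd), in the form used by this
file: the local group `G_q` with its `localLevel` and the restriction of the cyclotomic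
character. -/
theorem exists_monoDuality_local (hp2 : p ≠ 2) (q : Nat.Primes) :
    ∃ (_ : IsDiscrete (localLevel (primeLocalToGlobal q))
        (ofChar (k := ZMod p) ((cycloChar p).comp (primeLocalToGlobal q))))
      (t : levelCohomology (localLevel (primeLocalToGlobal q))
        (ofChar (k := ZMod p) ((cycloChar p).comp (primeLocalToGlobal q))) 2 →ₗ[ZMod p] ZMod p),
      MonoDuality (localLevel (primeLocalToGlobal q)) ((cycloChar p).comp (primeLocalToGlobal q)) t ∧
        FiniteH1 (k := ZMod p) (localLevel (primeLocalToGlobal q)) := by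
  classical
  set S : Finset Nat.Primes := {pPrime p, q} with hSdef
  have hpS : pPrime p ∈ S := by rw [hSdef]; exact Finset.mem_insert_self _ _
  have hqS : q ∈ S := by
    rw [hSdef]; exact Finset.mem_insert_of_mem (Finset.mem_singleton_self q)
  have hμ : IsDiscrete (globalLevel S) (ofChar (k := ZMod p) (cycloChar p)) :=
    isDiscrete_ofChar_cycloChar S hpS
  obtain ⟨tr, h⟩ := exists_tr_ptHyp S hp2 hpS
  exact ⟨inferInstanceAs (IsDiscrete ((localData S).𝒱 (⟨q, hqS⟩ : ↥S))
      (ofChar (k := ZMod p) ((cycloChar p).comp ((localData S).r (⟨q, hqS⟩ : ↥S))))),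
    invAt (localData S) tr (⟨q, hqS⟩ : ↥S), h.loc.mono (⟨q, hqS⟩ : ↥S),
    h.loc.fin (⟨q, hqS⟩ : ↥S)⟩

/-- **LEC-1 at the local group `G_q`** (`p` odd, `q` any prime): `eulerL` is additive on short
exact sequences of finite discrete `𝔽_p[G_q]`-modules. -/
theorem eulerL_add_local (hp2 : p ≠ 2) (q : Nat.Primes)
    {X : ShortComplex (Rep (ZMod p) (primeLocalGaloisGroup q))}
    [IsDiscrete (localLevel (primeLocalToGlobal q)) X.X₁]
    [IsDiscrete (localLevel (primeLocalToGlobal q)) X.X₂]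
    [IsDiscrete (localLevel (primeLocalToGlobal q)) X.X₃]
    [FiniteDimensional (ZMod p) X.X₁] [FiniteDimensional (ZMod p) X.X₂]
    [FiniteDimensional (ZMod p) X.X₃] (hX : X.ShortExact) :
    eulerL (localLevel (primeLocalToGlobal q)) X.X₂ =
      eulerL (localLevel (primeLocalToGlobal q)) X.X₁ +
        eulerL (localLevel (primeLocalToGlobal q)) X.X₃ := by
  obtain ⟨_, t, hΨ, hfin⟩ := exists_monoDuality_local (p := p) hp2 q
  exact eulerL_add hΨ hfin hX

/-- **LEC-1 on the finite quotients of `G_q`.** -/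
theorem fQuotL_add_local (hp2 : p ≠ 2) (q : Nat.Primes)
    {U : Subgroup (primeLocalGaloisGroup q)} [U.Normal]
    (hU : U ∈ (localLevel (primeLocalToGlobal q)).sets)
    {X : ShortComplex (Rep (ZMod p) (primeLocalGaloisGroup q ⧸ U))}
    [FiniteDimensional (ZMod p) X.X₁] [FiniteDimensional (ZMod p) X.X₂]
    [FiniteDimensional (ZMod p) X.X₃] (hX : X.ShortExact) :
    fQuotL (localLevel (primeLocalToGlobal q)) hU X.X₂ =
      fQuotL (localLevel (primeLocalToGlobal q)) hU X.X₁ +
        fQuotL (localLevel (primeLocalToGlobal q)) hU X.X₃ := by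
  obtain ⟨_, t, hΨ, hfin⟩ := exists_monoDuality_local (p := p) hp2 q
  exact fQuotL_add hU hΨ hfin hX

end Local

end Fermat.Agent.S56.Loc.EulerP.Additive
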